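import Mathlib
import Fermat.Agent.H09.GoodP
import Fermat.Agent.N4.FormalTors
import Fermat.Agent.H12.InertiaVal

/-!
# Good supersingular reduction at `p`: inertia stabilises no line of `E[p]`
-/

set_option autoImplicit false

namespace Fermat.Agent.H07.GR

open WeierstrassCurve WeierstrassCurve.Affine WeierstrassCurve.Affine.Point
open Fermat.Agent.H08 Fermat.Agent.H09 Fermat.Agent.N4

section pts

variable {G : Type*} [AddCommGroup G] {p : ℕ} [NeZero p] {S : G}

lemma val_nsmul' (hS : p • S = 0) (n : ℕ) : ((n : ZMod p)).val • S = n • S := by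
  rw [ZMod.val_natCast]
  conv_rhs => rw [← Nat.div_add_mod n p, add_smul, mul_comm, mul_smul, hS, smul_zero, zero_add]

lemma val_mul_nsmul (hS : p • S = 0) (a b : ZMod p) : (a * b).val • S = a.val • b.val • S := by
  have e : a * b = ((a.val * b.val : ℕ) : ZMod p) := by
    push_cast
    rw [ZMod.natCast_zmod_val, ZMod.natCast_zmod_val]
  rw [e, val_nsmul' hS, mul_smul]

lemma val_add_nsmul (hS : p • S = 0) (a b : ZMod p) :
    (a + b).val • S = a.val • S + b.val • S := by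
  have e : a + b = ((a.val + b.val : ℕ) : ZMod p) := by
    push_cast
    rw [ZMod.natCast_zmod_val, ZMod.natCast_zmod_val]
  rw [e, val_nsmul' hS, add_smul]

end pts

section

variable {L : Type*} [Field L] [CharZero L] [DecidableEq L] [Algebra.IsAlgebraic ℚ L]
  [IsGalois ℚ L] {A : ValuationSubring L} {W₀ : WeierstrassCurve.Affine ℚ} {p : ℕ}

omit [Algebra.IsAlgebraic ℚ L] [IsGalois ℚ L] in
lemma smul_nsmul_pts (σ : L ≃ₐ[ℚ] L) (m : ℕ) (P : (W₀⁄L).Point) : σ • (m • P) = m • (σ • P) := by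
  rw [← natCast_zsmul, ← natCast_zsmul, algEquiv_smul_zsmul]

/-- the norm of a line stable under inertia -/
theorem val_px_pow_line [hp : Fact p.Prime] (hp3 : 3 ≤ p) (hA : A.LiesOverPrime p)
    (hW : IsIntegralFor A.valuation (W₀⁄L)) {T : (W₀⁄L).Point}
    (h1 : 1 < A.valuation (px T)) (hpT : p • T = 0)
    (hI : ∀ σ ∈ A.inertiaSubgroupIn ℚ, ∃ k : ℕ, σ • T = k • T) :
    ∃ n : ℤ, A.valuation (px T) ^ (p - 1) = A.valuation (p : L) ^ n := by
  classical
  have hv : ∀ a : ℕ, ¬ p ∣ a → A.valuation (a : L) = 1 := by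
    intro a ha
    have := val_intCast_eq_one (L := L) (c := (a : ℤ)) hp.out hA (fun h => ha (by exact_mod_cast h))
    exact_mod_cast this
  have hunit : ∀ a : (ZMod p)ˣ, ¬ p ∣ (a : ZMod p).val := by
    intro a hd
    have h2 := ZMod.val_lt (a : ZMod p)
    have h3 : (a : ZMod p).val = 0 := Nat.eq_zero_of_dvd_of_lt hd h2
    exact a.ne_zero ((ZMod.val_eq_zero _).mp h3)
  have hval : ∀ a : (ZMod p)ˣ, A.valuation (px ((a : ZMod p).val • T)) = A.valuation (px T) :=
    fun a => (px_nsmul_val hW h1 (hv _ (hunit a))).2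
  have hne : ∀ a : (ZMod p)ˣ, px ((a : ZMod p).val • T) ≠ 0 := by
    intro a h0
    have := hval a
    rw [h0, _root_.map_zero] at this
    rw [← this] at h1
    exact absurd h1 (by simp)
  have hT0 : T ≠ 0 := by
    rintro rfl
    rw [show px (0 : (W₀⁄L).Point) = 0 from rfl, _root_.map_zero] at h1
    exact absurd h1 (by simp)
  obtain ⟨n, hn⟩ := H12.exists_valuation_eq_zpow hp.out hA
    (∏ a : (ZMod p)ˣ, px ((a : ZMod p).val • T)) (Finset.prod_ne_zero_iff.mpr fun a _ => hne a) (by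
      intro σ hσ
      obtain ⟨k, hk⟩ := hI σ hσ
      have hk0 : ((k : ZMod p)) ≠ 0 := by
        intro h0
        rw [ZMod.natCast_eq_zero_iff] at h0
        obtain ⟨m, rfl⟩ := h0
        rw [mul_comm, mul_smul, hpT, smul_zero] at hk
        exact smul_ne_zero' σ hT0 hk
      rw [map_prod]
      have e : ∀ a : (ZMod p)ˣ, σ (px ((a : ZMod p).val • T)) =
          px (((a * Units.mk0 _ hk0 : (ZMod p)ˣ) : ZMod p).val • T) := by
        intro a
        rw [← px_smul, smul_nsmul_pts, hk, Units.val_mul, Units.val_mk0, val_mul_nsmul hpT,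
          val_nsmul' hpT]
      rw [Finset.prod_congr rfl fun a _ => e a]
      exact Equiv.prod_comp (Equiv.mulRight (Units.mk0 (k : ZMod p) hk0))
        (fun a : (ZMod p)ˣ => px ((a : ZMod p).val • T)))
  refine ⟨n, ?_⟩
  rw [← hn, map_prod, Finset.prod_congr rfl fun a _ => hval a, Finset.prod_const,
    Finset.card_univ, ZMod.card_units]

/-- **Supersingular reduction**: no line of `E[p]` is stable under inertia. -/
theorem ss_no_line [IsAlgClosed L] {W₁ : WeierstrassCurve ℤ}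
    (hW₁ : W₁.map (Int.castRingHom L) = (W₀⁄L)) (hp : p.Prime) (hp3 : 3 ≤ p)
    (hA : A.LiesOverPrime p) (hΔ : A.valuation (W₀⁄L).Δ = 1)
    (hall : ∀ P : (W₀⁄L).Point, P ≠ 0 → p • P = 0 → 1 < A.valuation (px P))
    {T : (W₀⁄L).Point} (hT0 : T ≠ 0) (hpT : p • T = 0)
    (hI : ∀ σ ∈ A.inertiaSubgroupIn ℚ, ∃ k : ℕ, σ • T = k • T) : False := by
  haveI : Fact p.Prime := ⟨hp⟩
  have hW : IsIntegralFor A.valuation (W₀⁄L) := isIntegralFor_of_int hW₁
  have h1 := hall T hT0 hpT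
  obtain ⟨n, hn⟩ := val_px_pow_line hp3 hA hW h1 hpT hI
  have h2 := val_px_pow_of_all_gt hW₁ hp hp3 hA hΔ hall T hT0 hpT
  obtain ⟨m, hm⟩ := hp.odd_of_ne_two (by omega)
  have e1 : p - 1 = 2 * m := by omega
  have e2 : (p ^ 2 - 1) / 2 = 2 * m * (m + 1) := by
    rw [hm]
    have : (2 * m + 1) ^ 2 = 2 * (2 * m * (m + 1)) + 1 := by ring
    omega
  have hv0 : 0 < A.valuation (p : L) :=
    zero_lt_iff.mpr ((Valuation.ne_zero_iff _).mpr (Nat.cast_ne_zero.mpr hp.ne_zero))
  have hv1 : A.valuation (p : L) < 1 := val_natCast_lt_one hA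
  rw [e2, pow_mul, ← e1, hn, ← zpow_natCast, ← zpow_mul] at h2
  have h3 : A.valuation (p : L) ^ (n * ((m + 1 : ℕ) : ℤ) + 1) = A.valuation (p : L) ^ (0 : ℤ) := by
    rw [zpow_add₀ hv0.ne', zpow_one, h2, zpow_zero]
  have h4 := (zpow_right_strictAnti₀ hv0 hv1).injective h3
  have h5 : ((m + 1 : ℕ) : ℤ) ∣ 1 := ⟨-n, by linear_combination h4⟩
  have h6 : m + 1 ∣ 1 := by exact_mod_cast h5
  have := Nat.le_of_dvd one_pos h6
  omega

end

end Fermat.Agent.H07.GR
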